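/-
S14 package A4 (backup, helper47): elementary facts on `K(θ)`, `θ ^ p ∈ K`, `μ_p ⊆ K`.
Explicit trace `∑_{i<p} f(ξ^i θ) ∈ K`, polynomial description of `K(θ)`, action of automorphisms.
Mathlib only.
-/
import Mathlib

set_option autoImplicit false

namespace Fermat.Agent.S14.H47

open Polynomial

section Trace

variable {F E : Type*} [Field F] [Field E] [Algebra F E]

/-- **Explicit trace.** If `ξ ≠ 1` is a `p`-th root of unity in `F` and `θ ^ p ∈ F`, then
`∑_{i<p} f(ξ^i θ) ∈ F` for every polynomial `f` over `F`. -/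
theorem exists_algebraMap_eq_sum_aeval {p : ℕ} [Fact p.Prime] (ξ : F) (hξ : ξ ^ p = 1)
    (hξ1 : ξ ≠ 1) (θ : E) (a : F) (hθ : θ ^ p = algebraMap F E a) (f : F[X]) :
    ∃ y : F, algebraMap F E y = ∑ i ∈ Finset.range p, aeval (algebraMap F E ξ ^ i * θ) f := by
  induction f using Polynomial.induction_on' with
  | add f g hf hg =>
    obtain ⟨y, hy⟩ := hf
    obtain ⟨z, hz⟩ := hg
    refine ⟨y + z, ?_⟩
    simp only [map_add, Finset.sum_add_distrib, hy, hz]
  | monomial n c =>
    have hsum : ∑ i ∈ Finset.range p, aeval (algebraMap F E ξ ^ i * θ) (monomial n c)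
        = algebraMap F E c * θ ^ n * algebraMap F E (∑ i ∈ Finset.range p, (ξ ^ n) ^ i) := by
      rw [map_sum, Finset.mul_sum]
      refine Finset.sum_congr rfl fun i _ => ?_
      rw [aeval_monomial, mul_pow, map_pow, map_pow, ← pow_mul, ← pow_mul, mul_comm n i]
      ring
    by_cases hn : ξ ^ n = 1
    · -- `p ∣ n`
      have hord : orderOf ξ = p := orderOf_eq_prime hξ hξ1
      obtain ⟨k, rfl⟩ : p ∣ n := by
        rw [← hord]
        exact orderOf_dvd_of_pow_eq_one hn
      refine ⟨c * a ^ k * ∑ i ∈ Finset.range p, (ξ ^ (p * k)) ^ i, ?_⟩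
      rw [hsum, map_mul, map_mul, map_pow, ← hθ, ← pow_mul]
    · refine ⟨0, ?_⟩
      have h0 : ∑ i ∈ Finset.range p, (ξ ^ n) ^ i = 0 := by
        have h := geom_sum_mul (ξ ^ n) p
        rw [← pow_mul, mul_comm n p, pow_mul, hξ, one_pow, sub_self] at h
        rcases mul_eq_zero.mp h with h | h
        · exact h
        · exact absurd (sub_eq_zero.mp h) hn
      rw [hsum, h0, map_zero, mul_zero]

end Trace

section Adjoin

variable {F E : Type*} [Field F] [Field E] [Algebra F E]

/-- Elements of `F(θ)`, `θ` algebraic, are polynomials in `θ`. -/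
theorem mem_adjoin_simple_iff_aeval {θ : E} (hθ : IsAlgebraic F θ) (x : E) :
    x ∈ IntermediateField.adjoin F {θ} ↔ ∃ f : F[X], aeval θ f = x := by
  rw [← IntermediateField.mem_toSubalgebra,
    IntermediateField.adjoin_simple_toSubalgebra_of_isAlgebraic hθ,
    Algebra.adjoin_singleton_eq_range_aeval]
  exact AlgHom.mem_range _

/-- Polynomial expressions in an element of an intermediate field stay in it. -/
theorem aeval_mem_of_mem (S : IntermediateField F E) {y : E} (hy : y ∈ S) (f : F[X]) :
    aeval y f ∈ S := by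
  rw [aeval_eq_sum_range]
  exact sum_mem fun i _ => by
    rw [Algebra.smul_def]
    exact mul_mem (S.algebraMap_mem _) (pow_mem hy i)

/-- A ring endomorphism of `E` fixing `F` commutes with evaluation of polynomials over `F`. -/
theorem apply_aeval_of_fixes (τ : E →+* E) (hτ : ∀ x : F, τ (algebraMap F E x) = algebraMap F E x)
    (θ : E) (f : F[X]) : τ (aeval θ f) = aeval (τ θ) f := by
  rw [aeval_def, aeval_def, hom_eval₂]
  congr 1
  exact RingHom.ext hτ

end Adjoin

end Fermat.Agent.S14.H47
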