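/-
S14 package A4 (backup, helper47), Mathlib-only core.

Extension of number fields `L/K`, a prime `w` of `𝓞 L` over a prime `v` of `𝓞 K`.
If `𝓞 K → 𝓞 L ⧸ w ^ n` is onto (for `n = 2`, resp. all `n`), then `e(w|v) = 1`, the `w`-adic and
`v`-adic valuations agree on `𝓞 K`, and `w ^ n ∩ 𝓞 K = v ^ n`.
Approximation lemma: the surjectivity follows from a "trace" family of ring endomorphisms of `𝓞 L`
separating `w` from its conjugates.
-/
import Mathlib
import Fermat.Agent.S14.H70.Defs

set_option autoImplicit false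

namespace Fermat.Agent.S14.H47

open NumberField IsDedekindDomain

section Approx

variable {A B : Type*} [CommRing A] [CommRing B] [Algebra A B]

/-- If `b ∉ w` for a maximal ideal `w`, then `b` is invertible modulo `w ^ n`. -/
theorem exists_mul_sub_one_mem_pow {w : Ideal B} (hw : w.IsMaximal) {b : B} (hb : b ∉ w)
    (n : ℕ) : ∃ d : B, b * d - 1 ∈ w ^ n := by
  have h1 : Ideal.span {b} ⊔ w = ⊤ := by
    rw [sup_comm]
    exact hw.1.2 _ (lt_of_le_of_ne le_sup_left fun h => hb (by
      rw [h]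
      exact Ideal.mem_sup_right (Ideal.subset_span rfl)))
  have h2 : Ideal.span {b} ⊔ w ^ n = ⊤ := Ideal.sup_pow_eq_top h1
  have h3 : (1 : B) ∈ Ideal.span {b} ⊔ w ^ n := by rw [h2]; trivial
  obtain ⟨x, hx, y, hy, hxy⟩ := Submodule.mem_sup.mp h3
  obtain ⟨d, rfl⟩ := Ideal.mem_span_singleton'.mp hx
  refine ⟨d, ?_⟩
  have : b * d - 1 = -y := by rw [← hxy]; ring
  rw [this]
  exact neg_mem hy

/-- **Approximation lemma.** Let `s i`, `i ∈ ι`, be ring endomorphisms of `B` with `s i₀ = id`
whose sum takes values in (the image of) `A`, and such that every `s i`, `i ≠ i₀`, moves some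
element outside the maximal ideal `w` into `w`. Then `A → B ⧸ w ^ n` is onto. -/
theorem exists_sub_mem_pow_of_trace {ι : Type*} [Fintype ι] [DecidableEq ι] (w : Ideal B)
    (hw : w.IsMaximal) (s : ι → B →+* B) (i₀ : ι) (hs₀ : ∀ c, s i₀ c = c)
    (htr : ∀ c : B, ∃ y : A, algebraMap A B y = ∑ i, s i c)
    (hsep : ∀ i, i ≠ i₀ → ∃ b : B, s i b ∈ w ∧ b ∉ w) (n : ℕ) (c : B) :
    ∃ y : A, c - algebraMap A B y ∈ w ^ n := by
  classical
  choose b hb using hsep
  -- `b' i` is `1` at `i₀`
  have hd : ∀ i : ι, ∃ d : B, i ≠ i₀ → ∃ (hi : i ≠ i₀), b i hi * d - 1 ∈ w ^ n := by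
    intro i
    by_cases hi : i = i₀
    · exact ⟨0, fun h => absurd hi h⟩
    · obtain ⟨d, hd⟩ := exists_mul_sub_one_mem_pow hw (hb i hi).2 n
      exact ⟨d, fun _ => ⟨hi, hd⟩⟩
  choose d hd using hd
  -- the factors
  let g : ι → B := fun i => if hi : i = i₀ then 1 else (b i hi * d i) ^ n
  have hg1 : ∀ i, g i - 1 ∈ w ^ n := by
    intro i
    by_cases hi : i = i₀
    · simp [g, hi]
    · have hgi : g i = (b i hi * d i) ^ n := by simp [g, hi]
      obtain ⟨_, h⟩ := hd i hi
      rw [hgi]
      have h1 : (b i hi * d i) ^ n - 1 = (b i hi * d i) ^ n - 1 ^ n := by rw [one_pow]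
      rw [h1]
      exact Ideal.mem_of_dvd _ (sub_dvd_pow_sub_pow _ _ n) h
  let t : B := ∏ i, g i
  have ht1 : t - 1 ∈ w ^ n := by
    have : ∀ S : Finset ι, (∏ i ∈ S, g i) - 1 ∈ w ^ n := by
      intro S
      induction S using Finset.induction_on with
      | empty => simp
      | insert a S ha ih =>
        rw [Finset.prod_insert ha]
        have : g a * ∏ i ∈ S, g i - 1 = (g a - 1) * ∏ i ∈ S, g i + (∏ i ∈ S, g i - 1) := by ring
        rw [this]
        exact add_mem (Ideal.mul_mem_right _ _ (hg1 a)) ih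
    exact this Finset.univ
  have hst : ∀ i, i ≠ i₀ → s i t ∈ w ^ n := by
    intro i hi
    have hgi : g i = (b i hi * d i) ^ n := by simp [g, hi]
    have h1 : s i (g i) ∈ w ^ n := by
      rw [hgi, map_pow, map_mul, mul_pow]
      exact Ideal.mul_mem_right _ _ (Ideal.pow_mem_pow (hb i hi).1 n)
    have h2 : s i t = s i (g i) * ∏ j ∈ Finset.univ.erase i, s i (g j) := by
      rw [show t = ∏ j, g j from rfl, map_prod, ← Finset.mul_prod_erase Finset.univ _
        (Finset.mem_univ i)]
    rw [h2]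
    exact Ideal.mul_mem_right _ _ h1
  obtain ⟨y, hy⟩ := htr (c * t)
  refine ⟨y, ?_⟩
  rw [hy, ← Finset.add_sum_erase Finset.univ _ (Finset.mem_univ i₀), hs₀]
  have h3 : c - (c * t + ∑ i ∈ Finset.univ.erase i₀, s i (c * t))
      = -(c * (t - 1)) - ∑ i ∈ Finset.univ.erase i₀, s i (c * t) := by ring
  rw [h3]
  refine sub_mem (neg_mem (Ideal.mul_mem_left _ _ ht1)) (sum_mem fun i hi => ?_)
  rw [map_mul]
  exact Ideal.mul_mem_left _ _ (hst i (Finset.ne_of_mem_erase hi))

end Approx

section Val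

variable {A B : Type*} [CommRing A] [IsDedekindDomain A] [CommRing B] [IsDedekindDomain B]
  [Algebra A B] [Module.IsTorsionFree A B]
  (v : HeightOneSpectrum A) (w : HeightOneSpectrum B) [w.asIdeal.LiesOver v.asIdeal]

/-- If `A → B ⧸ w ^ 2` is onto, then `w` is unramified over `v`. -/
theorem ramificationIdx'_eq_one_of_approx
    (h2 : ∀ c : B, ∃ y : A, c - algebraMap A B y ∈ w.asIdeal ^ 2) :
    v.asIdeal.ramificationIdx' w.asIdeal = 1 := by
  have hover : v.asIdeal = w.asIdeal.under A := Ideal.LiesOver.over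
  refine Ideal.ramificationIdx'_spec ?_ ?_
  · rw [pow_one, Ideal.map_le_iff_le_comap, hover, Ideal.under_def]
  · intro hle
    have hlt : w.asIdeal ^ (1 + 1) < w.asIdeal ^ 1 := Ideal.pow_succ_lt_pow w.ne_bot 1
    obtain ⟨b, hb1, hb2⟩ := SetLike.exists_of_lt hlt
    rw [pow_one] at hb1
    obtain ⟨y, hy⟩ := h2 b
    have hyw : algebraMap A B y ∈ w.asIdeal := by
      have h : algebraMap A B y = b - (b - algebraMap A B y) := by ring
      rw [h]
      exact sub_mem hb1 (Ideal.pow_le_self two_ne_zero hy)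
    have hyv : y ∈ v.asIdeal := by
      rw [hover, Ideal.under_def, Ideal.mem_comap]
      exact hyw
    have hy2 : algebraMap A B y ∈ w.asIdeal ^ (1 + 1) := hle (Ideal.mem_map_of_mem _ hyv)
    apply hb2
    have h : b = (b - algebraMap A B y) + algebraMap A B y := by ring
    rw [h]
    exact add_mem hy hy2

theorem intValuation_algebraMap_of_approx
    (h2 : ∀ c : B, ∃ y : A, c - algebraMap A B y ∈ w.asIdeal ^ 2) (x : A) :
    w.intValuation (algebraMap A B x) = v.intValuation x := by
  rw [← HeightOneSpectrum.intValuation_liesOver v w x, ramificationIdx'_eq_one_of_approx v w h2,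
    pow_one]

/-- `w ^ n ∩ A = v ^ n`. -/
theorem algebraMap_mem_pow_iff_of_approx
    (h2 : ∀ c : B, ∃ y : A, c - algebraMap A B y ∈ w.asIdeal ^ 2) (x : A) (n : ℕ) :
    algebraMap A B x ∈ w.asIdeal ^ n ↔ x ∈ v.asIdeal ^ n := by
  rw [← HeightOneSpectrum.intValuation_le_pow_iff_mem,
    ← HeightOneSpectrum.intValuation_le_pow_iff_mem, intValuation_algebraMap_of_approx v w h2]

theorem count_algebraMap_of_approx
    (h2 : ∀ c : B, ∃ y : A, c - algebraMap A B y ∈ w.asIdeal ^ 2) {x : A} (hx : x ≠ 0)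
    (hx' : algebraMap A B x ≠ 0) :
    (Associates.mk w.asIdeal).count (Associates.mk (Ideal.span {algebraMap A B x})).factors
      = (Associates.mk v.asIdeal).count (Associates.mk (Ideal.span {x})).factors := by
  have h := intValuation_algebraMap_of_approx v w h2 x
  rw [HeightOneSpectrum.intValuation_if_neg w hx', HeightOneSpectrum.intValuation_if_neg v hx,
    WithZero.exp_inj, neg_inj] at h
  exact_mod_cast h

omit [IsDedekindDomain A] [Algebra A B] [Module.IsTorsionFree A B] in
/-- The multiplicity of a prime in `(x ^ n)`. -/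
theorem count_span_pow (w : HeightOneSpectrum B) {x : B} (hx : x ≠ 0) (n : ℕ) :
    (Associates.mk w.asIdeal).count (Associates.mk (Ideal.span {x ^ n})).factors
      = n * (Associates.mk w.asIdeal).count (Associates.mk (Ideal.span {x})).factors := by
  rw [← Ideal.span_singleton_pow, Associates.mk_pow]
  exact Associates.count_pow (by
    rw [Ne, Associates.mk_eq_zero, Ideal.zero_eq_bot, Ideal.span_singleton_eq_bot]
    exact hx) w.associates_irreducible n

end Val

end Fermat.Agent.S14.H47
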