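/-
S14 package A4 (backup, helper47): decomposition groups fix `θ` ⟹ local `p`-th power condition.
Element-level argument at the finite layer `L = K(θ)`: no ramification index / inertia degree of
`L/K`, no Galois group of `L/K`, no counting.
-/
import Mathlib
import Fermat.Agent.S14.H70.Defs
import Fermat.Agent.S14.H47.LocalIso
import Fermat.Agent.S14.H47.Kummer

set_option autoImplicit false

namespace Fermat.Agent.S14.H47

open NumberField IsDedekindDomain Polynomial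

local notation "Qb" => AlgebraicClosure ℚ
local notation "G" => (AlgebraicClosure ℚ ≃ₐ[ℚ] AlgebraicClosure ℚ)
local notation "Zb" => integralClosure ℤ (AlgebraicClosure ℚ)

section Layer

variable (K : IntermediateField ℚ Qb) (L : IntermediateField K Qb)

/-- `𝓞 L → ℚ̄`. -/
noncomputable def toQb : 𝓞 L →+* Qb := (algebraMap L Qb).comp (algebraMap (𝓞 L) L)

theorem toQb_apply (c : 𝓞 L) : toQb K L c = ((c : L) : Qb) := rfl

theorem toQb_injective : Function.Injective (toQb K L) := by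
  intro c d h
  exact RingOfIntegers.ext (Subtype.ext h)

theorem toQb_mem (c : 𝓞 L) : toQb K L c ∈ L := (c : L).2

theorem isIntegral_toQb (c : 𝓞 L) : IsIntegral ℤ (toQb K L c) :=
  map_isIntegral_int (algebraMap L Qb) (RingOfIntegers.isIntegral_coe c)

/-- `𝓞 L → ℤ̄`. -/
noncomputable def toZb : 𝓞 L →+* Zb :=
  RingHom.codRestrict (toQb K L) (integralClosure ℤ Qb) (isIntegral_toQb K L)

theorem coe_toZb (c : 𝓞 L) : ((toZb K L c : Zb) : Qb) = toQb K L c := rfl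

/-- Integral elements of `L` come from `𝓞 L`. -/
theorem exists_toQb_eq {x : Qb} (hx : x ∈ L) (hint : IsIntegral ℤ x) :
    ∃ c : 𝓞 L, toQb K L c = x := by
  have h : IsIntegral ℤ (⟨x, hx⟩ : L) := by
    rw [← isIntegral_algebraMap_iff (FaithfulSMul.algebraMap_injective L Qb)]
    exact hint
  exact ⟨⟨⟨x, hx⟩, h⟩, rfl⟩

/-- Restriction to `L` of an automorphism of `ℚ̄` mapping `L` into itself. -/
noncomputable def resL (τ : G) (h : ∀ x ∈ L, τ x ∈ L) : L →+* L :=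
  RingHom.codRestrict ((τ : Qb →+* Qb).comp (algebraMap L Qb)) L (fun x => h x x.2)

/-- The induced endomorphism of `𝓞 L`. -/
noncomputable def resO (τ : G) (h : ∀ x ∈ L, τ x ∈ L) : 𝓞 L →+* 𝓞 L :=
  RingOfIntegers.mapRingHom (resL K L τ h)

theorem toQb_resO (τ : G) (h : ∀ x ∈ L, τ x ∈ L) (c : 𝓞 L) :
    toQb K L (resO K L τ h c) = τ (toQb K L c) := rfl

end Layer

section Conj

variable {p : ℕ} [Fact p.Prime] (K : IntermediateField ℚ Qb)
  (L : IntermediateField K Qb) [NumberField L]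

omit [Fact p.Prime] [NumberField L] in
/-- Powers of an automorphism fixing `K` with `σ θ = ξ θ`, `ξ ∈ K`. -/
theorem pow_apply_of_fixes (σ : G) (hσK : ∀ x ∈ K, σ x = x) (θ ξ : Qb) (hξK : ξ ∈ K)
    (hσθ : σ θ = ξ * θ) (i : ℕ) :
    (∀ x ∈ K, (σ ^ i) x = x) ∧ (σ ^ i) θ = ξ ^ i * θ := by
  induction i with
  | zero => simp
  | succ i ih =>
    refine ⟨fun x hx => ?_, ?_⟩
    · rw [pow_succ, AlgEquiv.mul_apply, hσK x hx, ih.1 x hx]
    · rw [pow_succ, AlgEquiv.mul_apply, hσθ, map_mul, ih.1 ξ hξK, ih.2]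
      ring

/-- **Approximation at the layer `L = K(θ)`**: if no conjugation `σ ^ i`, `0 < i < p`, stabilises
`Q ∩ L`, then `𝓞 K → 𝓞 L ⧸ (Q ∩ 𝓞 L) ^ n` is onto. -/
theorem approx_of_conj (θ : Qb) (a : K) (hθ : θ ^ p = (a : Qb)) (hθ0 : θ ≠ 0) (hθL : θ ∈ L)
    (hLpoly : ∀ x ∈ L, ∃ f : K[X], aeval θ f = x)
    (Q : Ideal Zb) [Q.IsPrime] (ℓ : ℕ) (hℓ : ℓ ≠ 0) (hℓQ : (ℓ : Zb) ∈ Q)
    (σ : G) (hσK : ∀ x ∈ K, σ x = x) (ξ : Qb) (hξK : ξ ∈ K) (hξp : ξ ^ p = 1) (hξ1 : ξ ≠ 1)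
    (hσθ : σ θ = ξ * θ)
    (hnostab : ∀ τ : G, (∀ x ∈ K, τ x = x) → τ θ ≠ θ →
      ¬ ∀ b : Zb, (b : Qb) ∈ L → (τ • b ∈ Q ↔ b ∈ Q))
    (n : ℕ) (c : 𝓞 L) :
    ∃ y : 𝓞 K, c - algebraMap (𝓞 K) (𝓞 L) y ∈ (Q.comap (toZb K L)) ^ n := by
  have hp : p.Prime := Fact.out
  have hpow := pow_apply_of_fixes K σ hσK θ ξ hξK hσθ
  -- all powers of `σ` preserve `L`
  have hL : ∀ (i : ℕ), ∀ x ∈ L, (σ ^ i) x ∈ L := by
    intro i x hx
    obtain ⟨f, rfl⟩ := hLpoly x hx
    have h1 : (σ ^ i) (aeval θ f) = aeval ((σ ^ i) θ) f :=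
      apply_aeval_of_fixes (F := K) ((σ ^ i : G) : Qb →+* Qb)
        (fun x : K => (hpow i).1 (x : Qb) x.2) θ f
    rw [h1, (hpow i).2]
    exact aeval_mem_of_mem L (mul_mem (pow_mem (L.algebraMap_mem ⟨ξ, hξK⟩) i) hθL) f
  let s : Fin p → 𝓞 L →+* 𝓞 L := fun i => resO K L (σ ^ (i : ℕ)) (hL i)
  have hs : ∀ (i : Fin p) (c : 𝓞 L), toQb K L (s i c) = (σ ^ (i : ℕ)) (toQb K L c) :=
    fun i c => rfl
  let i₀ : Fin p := ⟨0, hp.pos⟩
  -- the prime `w = Q ∩ 𝓞 L`
  have hℓw : ((ℓ : ℕ) : 𝓞 L) ∈ Q.comap (toZb K L) := by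
    rw [Ideal.mem_comap, map_natCast]
    exact hℓQ
  have hℓ0 : ((ℓ : ℕ) : 𝓞 L) ≠ 0 := by exact_mod_cast hℓ
  have hwmax : (Q.comap (toZb K L)).IsMaximal :=
    Ideal.IsPrime.isMaximal inferInstance (fun h => hℓ0 (by simpa [h] using hℓw))
  -- orderOf ξ
  have hord : orderOf ξ = p := orderOf_eq_prime hξp hξ1
  refine exists_sub_mem_pow_of_trace (Q.comap (toZb K L)) hwmax s i₀ ?_ ?_ ?_ n c
  · -- `s i₀ = id`
    intro c
    apply toQb_injective K L
    rw [hs]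
    simp [i₀]
  · -- trace
    intro c
    obtain ⟨f, hf⟩ := hLpoly _ (toQb_mem K L c)
    obtain ⟨y₀, hy₀⟩ := exists_algebraMap_eq_sum_aeval (F := K) (E := Qb) (p := p)
      (⟨ξ, hξK⟩ : K) (Subtype.ext (by simpa using hξp)) (fun h => hξ1 (congrArg Subtype.val h))
      θ a hθ f
    have hsum : (y₀ : Qb) = toQb K L (∑ i, s i c) := by
      rw [map_sum, ← Fin.sum_univ_eq_sum_range
        (fun i => aeval (algebraMap K Qb (⟨ξ, hξK⟩ : K) ^ i * θ) f) p] at *
      rw [show ((y₀ : K) : Qb) = algebraMap K Qb y₀ from rfl, hy₀]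
      refine Finset.sum_congr rfl fun i _ => ?_
      have h1 : (σ ^ (i : ℕ)) (aeval θ f) = aeval ((σ ^ (i : ℕ)) θ) f :=
        apply_aeval_of_fixes (F := K) ((σ ^ (i : ℕ) : G) : Qb →+* Qb)
          (fun x : K => (hpow i).1 (x : Qb) x.2) θ f
      rw [hs, ← hf, h1, (hpow i).2]
      rfl
    have hint : IsIntegral ℤ y₀ := by
      rw [← isIntegral_algebraMap_iff (FaithfulSMul.algebraMap_injective K Qb)]
      rw [show algebraMap K Qb y₀ = (y₀ : Qb) from rfl, hsum]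
      exact isIntegral_toQb K L _
    refine ⟨⟨y₀, hint⟩, ?_⟩
    apply toQb_injective K L
    rw [← hsum]
    rfl
  · -- separation
    intro i hi
    by_contra hcon0
    have hcon : ∀ b : 𝓞 L, s i b ∈ Q.comap (toZb K L) → b ∈ Q.comap (toZb K L) :=
      fun b hb => by_contra fun hbn => hcon0 ⟨b, hb, hbn⟩
    have hi0 : (i : ℕ) ≠ 0 := fun h => hi (Fin.ext h)
    have hP : ((Q.comap (toZb K L)).comap (s i)).IsMaximal := by
      refine Ideal.IsPrime.isMaximal inferInstance (fun h => hℓ0 ?_)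
      have : ((ℓ : ℕ) : 𝓞 L) ∈ (Q.comap (toZb K L)).comap (s i) := by
        rw [Ideal.mem_comap, map_natCast]
        exact hℓw
      simpa [h] using this
    have hPw : (Q.comap (toZb K L)).comap (s i) = Q.comap (toZb K L) :=
      hP.eq_of_le hwmax.ne_top (fun b hb => hcon b hb)
    have hξi : ξ ^ (i : ℕ) ≠ 1 := pow_ne_one_of_lt_orderOf hi0 (by rw [hord]; exact i.2)
    refine hnostab (σ ^ (i : ℕ)) (hpow i).1 ?_ ?_
    · rw [(hpow i).2]
      intro h
      apply hξi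
      have h2 : (ξ ^ (i : ℕ) - 1) * θ = 0 := by rw [sub_mul, h, one_mul, sub_self]
      rcases mul_eq_zero.mp h2 with h3 | h3
      · exact sub_eq_zero.mp h3
      · exact absurd h3 hθ0
    · intro b hb
      obtain ⟨c', hc'⟩ := exists_toQb_eq K L hb b.2
      have h1 : toZb K L c' = b := Subtype.ext hc'
      have h2 : toZb K L (s i c') = σ ^ (i : ℕ) • b := by
        apply Subtype.ext
        rw [coe_toZb, hs, hc']
        rfl
      have h3 : s i c' ∈ Q.comap (toZb K L) ↔ c' ∈ Q.comap (toZb K L) := by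
        rw [← Ideal.mem_comap (f := s i), hPw]
      rw [Ideal.mem_comap, Ideal.mem_comap, h2, h1] at h3
      exact h3

end Conj

section Main

theorem isAlgebraic_Qb : Algebra.IsAlgebraic ℚ Qb := AlgebraicClosure.isAlgebraic ℚ

theorem isGalois_Qb : IsGalois ℚ Qb := by
  have : Algebra.IsAlgebraic ℚ Qb := isAlgebraic_Qb
  have : IsAlgClosure ℚ Qb := ⟨inferInstance, inferInstance⟩
  exact IsAlgClosure.isGalois ℚ Qb

/-- An element outside `K` is moved by an automorphism fixing `K`. -/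
theorem exists_fixes_and_moves (K : IntermediateField ℚ Qb) {θ : Qb} (hθ : θ ∉ K) :
    ∃ σ : G, (∀ x ∈ K, σ x = x) ∧ σ θ ≠ θ := by
  have := isGalois_Qb
  by_contra hcon
  apply hθ
  rw [← InfiniteGalois.fixedField_fixingSubgroup K, IntermediateField.mem_fixedField_iff]
  intro σ hσ
  by_contra hne
  exact hcon ⟨σ, (IntermediateField.mem_fixingSubgroup_iff K σ).mp hσ, hne⟩

open Fermat.Agent.S14.H70 in
/-- **A4, finite-level form.** `Q` a prime of `ℤ̄` over the prime `v` of `𝓞 K`; if no automorphism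
fixing `K` and moving `θ` stabilises `Q ∩ K(θ)`, then `p ∣ v(a)` and units `a x ^ p` are `p`-th
powers modulo `v ^ 3`. -/
theorem loc_of_nostab {p : ℕ} [Fact p.Prime] (K : IntermediateField ℚ Qb) [NumberField K]
    (ζ : Qb) (hζ : IsPrimitiveRoot ζ p) (hζK : ζ ∈ K) (θ : Qb) (a : 𝓞 K) (ha : a ≠ 0)
    (hθ : θ ^ p = ((a : K) : Qb))
    (v : HeightOneSpectrum (𝓞 K)) (ℓ : ℕ) (hℓ : ℓ ≠ 0) (hℓv : (ℓ : 𝓞 K) ∈ v.asIdeal)
    (Q : Ideal Zb) [Q.IsPrime]
    (hQv : ∀ (x : 𝓞 K) (b : Zb), (b : Qb) = ((x : K) : Qb) → (b ∈ Q ↔ x ∈ v.asIdeal))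
    (hnostab : ∀ τ : G, (∀ x ∈ K, τ x = x) → τ θ ≠ θ →
      ¬ ∀ b : Zb, (b : Qb) ∈ IntermediateField.adjoin K {θ} → (τ • b ∈ Q ↔ b ∈ Q)) :
    p ∣ cnt v a ∧ ∀ (x : K) (u : (𝓞 K)ˣ), ((u : 𝓞 K) : K) = (a : K) * x ^ p →
      ∃ y : 𝓞 K, (u : 𝓞 K) - y ^ p ∈ v.asIdeal ^ 3 := by
  have hp : p.Prime := Fact.out
  have : NeZero p := ⟨hp.ne_zero⟩
  have haK : ((a : K) : Qb) ≠ 0 := by
    intro h
    apply ha
    apply RingOfIntegers.ext
    exact Subtype.ext h
  have hθ0 : θ ≠ 0 := by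
    rintro rfl
    rw [zero_pow hp.ne_zero] at hθ
    exact haK hθ.symm
  have haint : IsIntegral ℤ ((a : K) : Qb) :=
    map_isIntegral_int (algebraMap K Qb) (RingOfIntegers.isIntegral_coe a)
  have hθint : IsIntegral ℤ θ := IsIntegral.of_pow hp.pos (by rw [hθ]; exact haint)
  by_cases hθK : θ ∈ K
  · -- trivial case
    have htint : IsIntegral ℤ (⟨θ, hθK⟩ : K) := by
      rw [← isIntegral_algebraMap_iff (FaithfulSMul.algebraMap_injective K Qb)]
      exact hθint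
    let t : 𝓞 K := ⟨⟨θ, hθK⟩, htint⟩
    have ht : t ^ p = a := by
      apply RingOfIntegers.ext
      apply Subtype.ext
      exact hθ
    have ht0 : t ≠ 0 := by
      rintro h
      rw [h, zero_pow hp.ne_zero] at ht
      exact ha ht.symm
    refine ⟨?_, ?_⟩
    · unfold cnt
      rw [← ht, count_span_pow v ht0 p]
      exact dvd_mul_right _ _
    · intro x u hu
      have hyint : IsIntegral ℤ ((⟨θ, hθK⟩ : K) * x) := by
        refine IsIntegral.of_pow hp.pos ?_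
        have : ((⟨θ, hθK⟩ : K) * x) ^ p = ((u : 𝓞 K) : K) := by
          rw [hu, mul_pow]
          congr 1
          exact Subtype.ext hθ
        rw [this]
        exact RingOfIntegers.isIntegral_coe _
      let y : 𝓞 K := ⟨(⟨θ, hθK⟩ : K) * x, hyint⟩
      refine ⟨y, ?_⟩
      have : (u : 𝓞 K) - y ^ p = 0 := by
        rw [sub_eq_zero]
        apply RingOfIntegers.ext
        show ((u : 𝓞 K) : K) = ((⟨θ, hθK⟩ : K) * x) ^ p
        rw [hu, mul_pow]
        congr 1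
        exact (Subtype.ext hθ).symm
      rw [this]
      exact zero_mem _
  · -- main case
    obtain ⟨σ, hσK, hσθ'⟩ := exists_fixes_and_moves K hθK
    -- the root of unity `ξ = σ θ / θ`
    obtain ⟨ξ, hξK, hξp, hξ1, hσθ⟩ : ∃ ξ : Qb, ξ ∈ K ∧ ξ ^ p = 1 ∧ ξ ≠ 1 ∧ σ θ = ξ * θ := by
      have h1 : (σ θ / θ) ^ p = 1 := by
        rw [div_pow, ← map_pow, hθ, hσK _ (a : K).2, div_self haK]
      obtain ⟨i, -, hi⟩ := hζ.eq_pow_of_pow_eq_one h1
      refine ⟨σ θ / θ, ?_, h1, ?_, ?_⟩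
      · rw [← hi]
        exact pow_mem hζK i
      · intro h
        apply hσθ'
        rw [div_eq_one_iff_eq hθ0] at h
        exact h
      · rw [div_mul_cancel₀ _ hθ0]
    have := isAlgebraic_Qb
    have hθintK : IsIntegral K θ := hθint.tower_top
    let L : IntermediateField K Qb := IntermediateField.adjoin K {θ}
    have : FiniteDimensional K L := IntermediateField.adjoin.finiteDimensional hθintK
    have : NumberField L := NumberField.of_module_finite K L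
    have hθL : θ ∈ L := IntermediateField.mem_adjoin_simple_self K θ
    have hLpoly : ∀ x ∈ L, ∃ f : K[X], aeval θ f = x := fun x hx =>
      (mem_adjoin_simple_iff_aeval hθintK.isAlgebraic x).mp hx
    have hℓQ : ((ℓ : ℕ) : Zb) ∈ Q := (hQv (ℓ : 𝓞 K) (ℓ : Zb) (by simp)).mpr hℓv
    have happrox := approx_of_conj K L θ (a : K) hθ hθ0 hθL hLpoly Q ℓ hℓ hℓQ σ hσK ξ hξK hξp
      hξ1 hσθ hnostab
    -- the prime `w`
    have hℓ0 : ((ℓ : ℕ) : 𝓞 L) ≠ 0 := by exact_mod_cast hℓ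
    have hℓw : ((ℓ : ℕ) : 𝓞 L) ∈ Q.comap (toZb K L) := by
      rw [Ideal.mem_comap, map_natCast]
      exact hℓQ
    let w : HeightOneSpectrum (𝓞 L) :=
      ⟨Q.comap (toZb K L), inferInstance, fun h => hℓ0 (by simpa [h] using hℓw)⟩
    have : w.asIdeal.LiesOver v.asIdeal := ⟨by
      ext x
      rw [Ideal.under_def, Ideal.mem_comap]
      exact (hQv x (toZb K L (algebraMap (𝓞 K) (𝓞 L) x)) rfl).symm⟩
    have h2 : ∀ c : 𝓞 L, ∃ y : 𝓞 K, c - algebraMap (𝓞 K) (𝓞 L) y ∈ w.asIdeal ^ 2 :=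
      fun c => happrox 2 c
    have hinj : Function.Injective (algebraMap (𝓞 K) (𝓞 L)) :=
      FaithfulSMul.algebraMap_injective _ _
    refine ⟨?_, ?_⟩
    · obtain ⟨t, ht⟩ := exists_toQb_eq K L hθL hθint
      have htp : t ^ p = algebraMap (𝓞 K) (𝓞 L) a := by
        apply toQb_injective K L
        rw [map_pow, ht, hθ]
        rfl
      have ha' : algebraMap (𝓞 K) (𝓞 L) a ≠ 0 := by
        rw [Ne, map_eq_zero_iff _ hinj]
        exact ha
      have ht0 : t ≠ 0 := by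
        rintro h
        rw [h, zero_pow hp.ne_zero] at htp
        exact ha' htp.symm
      unfold cnt
      rw [← count_algebraMap_of_approx v w h2 ha ha', ← htp, count_span_pow w ht0 p]
      exact dvd_mul_right _ _
    · intro x u hu
      have hc0L : θ * (x : Qb) ∈ L := mul_mem hθL (L.algebraMap_mem x)
      have hc0p : (θ * (x : Qb)) ^ p = (((u : 𝓞 K) : K) : Qb) := by
        rw [mul_pow, hθ, hu]
        rfl
      have hc0int : IsIntegral ℤ (θ * (x : Qb)) := by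
        refine IsIntegral.of_pow hp.pos ?_
        rw [hc0p]
        exact map_isIntegral_int (algebraMap K Qb) (RingOfIntegers.isIntegral_coe _)
      obtain ⟨c, hc⟩ := exists_toQb_eq K L hc0L hc0int
      have hcp : c ^ p = algebraMap (𝓞 K) (𝓞 L) (u : 𝓞 K) := by
        apply toQb_injective K L
        rw [map_pow, hc, hc0p]
        rfl
      obtain ⟨y, hy⟩ := happrox 3 c
      refine ⟨y, ?_⟩
      rw [← algebraMap_mem_pow_iff_of_approx v w h2, map_sub, map_pow, ← hcp]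
      exact Ideal.mem_of_dvd _ (sub_dvd_pow_sub_pow _ _ p) hy

end Main

end Fermat.Agent.S14.H47
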