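/-
S14 package A4 (backup, helper47): the skeleton statement `loc_of_decomposition_fixes`, proved from
the A0 dictionary statements (taken as hypotheses `hA0₁`, `hA0₂` in their exact skeleton shapes).
-/
import Mathlib
import Fermat.Prelude.Def_FLTPrelim_Ramification
import Fermat.Agent.S14.H70.Defs
import Fermat.Agent.S14.H47.DecompLoc

set_option autoImplicit false

namespace Fermat.Agent.S14.H47

open NumberField IsDedekindDomain ValuationSubring IntermediateField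
open Fermat.Agent.S14.H70

local notation "Qb" => AlgebraicClosure ℚ
local notation "G" => (AlgebraicClosure ℚ ≃ₐ[ℚ] AlgebraicClosure ℚ)

/-- **A4** from the A0 dictionary (parts 1 and 2, exact skeleton shapes as hypotheses). -/
theorem loc_of_decomposition_fixes_of_A0 {p : ℕ} [Fact p.Prime]
    (K : IntermediateField ℚ Qb) [NumberField K]
    (ζ : Qb) (hζ : IsPrimitiveRoot ζ p) (hζK : ζ ∈ K) (θ : Qb) (a : 𝓞 K) (ha : a ≠ 0)
    (hθ : θ ^ p = ((a : K) : Qb)) (ℓ : ℕ) (hℓ : ℓ.Prime)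
    (hD : ∀ A : ValuationSubring Qb, A.LiesOverPrime ℓ →
      ∀ σ ∈ A.decompositionSubgroup ℚ, (∀ x ∈ K, σ x = x) → σ θ = θ)
    (v : HeightOneSpectrum (𝓞 K)) (hv : (ℓ : 𝓞 K) ∈ v.asIdeal)
    (hA0₁ : ∃ (Q : Ideal (integralClosure ℤ Qb)) (_ : Q.IsPrime) (A : ValuationSubring Qb),
      A.LiesOverPrime ℓ ∧
      (∀ (x : 𝓞 K) (b : integralClosure ℤ Qb), (b : Qb) = ((x : K) : Qb) →
        (b ∈ Q ↔ x ∈ v.asIdeal)) ∧
      (∀ σ : G, (∀ b : integralClosure ℤ Qb, σ • b ∈ Q ↔ b ∈ Q) →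
        σ ∈ A.decompositionSubgroup ℚ) ∧
      (∀ σ : G, (∀ b : integralClosure ℤ Qb, σ • b - b ∈ Q) → σ ∈ A.inertiaSubgroupIn ℚ))
    (hA0₂ : ∀ (L : IntermediateField ℚ Qb) [FiniteDimensional ℚ L]
      (Q : Ideal (integralClosure ℤ Qb)) [Q.IsPrime] (σ₀ : G),
      (∀ b : integralClosure ℤ Qb, (b : Qb) ∈ L → (σ₀ • b ∈ Q ↔ b ∈ Q)) →
      ∃ σ : G, (∀ x ∈ L, σ x = σ₀ x) ∧ ∀ b : integralClosure ℤ Qb, σ • b ∈ Q ↔ b ∈ Q) :
    p ∣ cnt v a ∧ ∀ (x : K) (u : (𝓞 K)ˣ), ((u : 𝓞 K) : K) = (a : K) * x ^ p →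
      ∃ y : 𝓞 K, (u : 𝓞 K) - y ^ p ∈ v.asIdeal ^ 3 := by
  have hp : p.Prime := Fact.out
  obtain ⟨Q, hQ, A, hA, hQv, hDrec, -⟩ := hA0₁
  refine loc_of_nostab K ζ hζ hζK θ a ha hθ v ℓ hℓ.ne_zero hv Q hQv ?_
  intro τ hτK hτθ hstab
  -- a finite level containing `K` and `θ`
  have haint : IsIntegral ℤ ((a : K) : Qb) :=
    map_isIntegral_int (algebraMap K Qb) (RingOfIntegers.isIntegral_coe a)
  have hθint : IsIntegral ℤ θ := IsIntegral.of_pow hp.pos (by rw [hθ]; exact haint)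
  have hθintQ : IsIntegral ℚ θ := hθint.tower_top
  have : FiniteDimensional ℚ ℚ⟮θ⟯ := IntermediateField.adjoin.finiteDimensional hθintQ
  let L' : IntermediateField ℚ Qb := K ⊔ ℚ⟮θ⟯
  have hL'le : L' ≤ (IntermediateField.adjoin K {θ}).restrictScalars ℚ := by
    refine sup_le ?_ ?_
    · intro x hx
      exact (IntermediateField.adjoin K {θ}).algebraMap_mem ⟨x, hx⟩
    · rw [IntermediateField.adjoin_simple_le_iff]
      exact IntermediateField.mem_adjoin_simple_self K θ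
  have hKL' : ∀ x ∈ K, x ∈ L' := fun x hx => (le_sup_left : K ≤ L') hx
  have hθL' : θ ∈ L' := (le_sup_right : ℚ⟮θ⟯ ≤ L') (IntermediateField.mem_adjoin_simple_self ℚ θ)
  obtain ⟨σ, hσL, hσQ⟩ := hA0₂ L' Q τ (fun b hb => hstab b (hL'le hb))
  have hσD : σ ∈ A.decompositionSubgroup ℚ := hDrec σ hσQ
  have hσθ : σ θ = θ := hD A hA σ hσD (fun x hx => by rw [hσL x (hKL' x hx), hτK x hx])
  exact hτθ (by rw [← hσL θ hθL', hσθ])

end Fermat.Agent.S14.H47
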