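import Mathlib
import Fermat.Agent.S14.H4.Dictionary
import Fermat.Agent.S14.H47.A4
import Fermat.Agent.S14.H70.Assembly

/-!
# S14, package A4 (helper47): decomposition at a prime, final form

`loc_of_decomposition_fixes` is the skeleton statement of A4, obtained from
`loc_of_decomposition_fixes_of_A0` and the landed dictionary A0 (`H4.Dictionary`).
`a4Stmt` restates it as `H70.A4Stmt p`, the shape consumed by `H70.extVanishingCts_of`.
-/

set_option autoImplicit false

namespace Fermat.Agent.S14.H47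

open NumberField IsDedekindDomain ValuationSubring

local notation "Qb" => AlgebraicClosure ℚ

/-- **A4** (decomposition at a prime): if every element of a decomposition group over `ℓ`
fixing `K` pointwise fixes `θ`, where `θ ^ p = a ∈ 𝓞 K` and `K ∋ ζ_p`, then at every prime `v`
of `K` over `ℓ` the valuation of `a` is divisible by `p`, and every unit of the form `a * x ^ p`
is a `p`-th power modulo `v ^ 3`. -/
theorem loc_of_decomposition_fixes {p : ℕ} [Fact p.Prime] (K : IntermediateField ℚ Qb)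
    [NumberField K] (ζ : Qb) (hζ : IsPrimitiveRoot ζ p) (hζK : ζ ∈ K) (θ : Qb) (a : 𝓞 K)
    (ha : a ≠ 0) (hθ : θ ^ p = ((a : K) : Qb)) (ℓ : ℕ) (hℓ : ℓ.Prime)
    (hD : ∀ A : ValuationSubring Qb, A.LiesOverPrime ℓ →
      ∀ σ ∈ A.decompositionSubgroup ℚ, (∀ x ∈ K, σ x = x) → σ θ = θ)
    (v : HeightOneSpectrum (𝓞 K)) (hv : (ℓ : 𝓞 K) ∈ v.asIdeal) :
    p ∣ H70.cnt v a ∧ ∀ (x : K) (u : (𝓞 K)ˣ), ((u : 𝓞 K) : K) = (a : K) * x ^ p →
      ∃ y : 𝓞 K, (u : 𝓞 K) - y ^ p ∈ v.asIdeal ^ 3 :=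
  loc_of_decomposition_fixes_of_A0 K ζ hζ hζK θ a ha hθ ℓ hℓ hD v hv
    (H4.exists_valuationSubring_over K v ℓ hℓ hv)
    (fun L _ Q _ σ₀ h => H4.exists_lift_decomposition L Q σ₀ h)

/-- **A4** in the shape `H70.A4Stmt` consumed by the assembly `H70.extVanishingCts_of`. -/
theorem a4Stmt (p : ℕ) [Fact p.Prime] : H70.A4Stmt p :=
  fun K _ ζ hζ hζK θ a ha hθ ℓ hℓ hD v hv =>
    loc_of_decomposition_fixes K ζ hζ hζK θ a ha hθ ℓ hℓ hD v hv

end Fermat.Agent.S14.H47
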